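import Fermat.Agent.S49.Mod3

set_option autoImplicit false

namespace Fermat.Agent.S49

open CuspForm ModularForm ModularFormClass CongruenceSubgroup EisensteinWeightOne

variable {N : ℕ}

theorem scalar_mod3 [NeZero N] {a af : ℕ → ℤ}
    (heig : FormalHecke.IsEigensystem
      (fun ℓ => if ℓ ∣ N then 0 else ((chiNegThree ℓ : ℤ) : ℤ)) a)
    (f₀ : CuspForm (Gamma0 N) 2) (haf : ∀ n, (af n : ℂ) = qCoeff ⇑f₀ n)
    (h3 : ∀ n, (3 : ℤ) ∣ af n - a n) :
    (∀ (ℓ : ℕ) (hℓ : ℓ.Prime) (hℓN : ¬ ℓ ∣ N),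
      InL3 (CuspForm.heckeTLin 2 hℓ hℓN f₀ - ((a ℓ : ℤ) : ℂ) • f₀)) ∧
    (∀ (q : ℕ) (_ : q.Prime) (hqN : q ∣ N),
      InL3 (CuspForm.heckeULin 2 hqN f₀ - ((a q : ℤ) : ℂ) • f₀)) := by
  constructor
  · intro ℓ hℓ hℓN n
    obtain ⟨m, hm⟩ := eig_T_mod3 heig h3 ℓ hℓ hℓN n
    refine ⟨m, ?_⟩
    rw [qc_sub, qc_smul, qc_heckeT]
    simp only [← haf]
    have h1 := congrArg (Int.cast : ℤ → ℂ) hm
    push_cast at h1
    rw [← h1]
    split_ifs with hn
    · norm_num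
    · simp
  · intro q hq hqN n
    obtain ⟨m, hm⟩ := eig_U_mod3 heig h3 q hq hqN n
    refine ⟨m, ?_⟩
    rw [qc_sub, qc_smul, qc_heckeU hq.ne_zero]
    simp only [← haf]
    have h1 := congrArg (Int.cast : ℤ → ℂ) hm
    push_cast at h1
    rw [← h1]

theorem scalar_all [NeZero N] {a : ℕ → ℤ} (f₀ : CuspForm (Gamma0 N) 2)
    (hT : ∀ (ℓ : ℕ) (hℓ : ℓ.Prime) (hℓN : ¬ ℓ ∣ N),
      InL3 (CuspForm.heckeTLin 2 hℓ hℓN f₀ - ((a ℓ : ℤ) : ℂ) • f₀))
    (hU : ∀ (q : ℕ) (_ : q.Prime) (hqN : q ∣ N),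
      InL3 (CuspForm.heckeULin 2 hqN f₀ - ((a q : ℤ) : ℂ) • f₀))
    {t : Module.End ℂ (CuspForm (Gamma0 N) 2)}
    (ht : t ∈ CuspForm.heckeAlgebra N 2 (∅ : Set ℕ)) :
    ∃ c : ℤ, InL3 (t f₀ - (c : ℂ) • f₀) := by
  refine Algebra.adjoin_induction
    (p := fun (t : Module.End ℂ (CuspForm (Gamma0 N) 2)) _ =>
      ∃ c : ℤ, InL3 (t f₀ - (c : ℂ) • f₀)) ?_ ?_ ?_ ?_ ht
  · rintro x (⟨ℓ, hℓ, hℓN, -, rfl⟩ | ⟨q, hqN, hq, -, rfl⟩)
    · exact ⟨a ℓ, hT ℓ hℓ hℓN⟩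
    · exact ⟨a q, hU q hq hqN⟩
  · intro r
    refine ⟨r, ?_⟩
    rw [Algebra.algebraMap_eq_smul_one, LinearMap.smul_apply, Module.End.one_apply,
      Int.cast_smul_eq_zsmul, sub_self]
    exact inL3_zero
  · rintro x y _ _ ⟨cx, hx⟩ ⟨cy, hy⟩
    refine ⟨cx + cy, ?_⟩
    have h1 : (x + y) f₀ - ((cx + cy : ℤ) : ℂ) • f₀ =
        (x f₀ - (cx : ℂ) • f₀) + (y f₀ - (cy : ℂ) • f₀) := by
      rw [LinearMap.add_apply]; push_cast; module
    rw [h1]
    exact inL3_add hx hy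
  · rintro x y hxm _ ⟨cx, hx⟩ ⟨cy, hy⟩
    refine ⟨cx * cy, ?_⟩
    have h1 : (x * y) f₀ - ((cx * cy : ℤ) : ℂ) • f₀ =
        x (y f₀ - (cy : ℂ) • f₀) + (cy : ℂ) • (x f₀ - (cx : ℂ) • f₀) := by
      rw [Module.End.mul_apply, map_sub, map_smul]; push_cast; module
    rw [h1]
    exact inL3_add (inL3_hecke hxm hy) (inL3_smul_int cy hx)

theorem main_abs [NeZero N] {T : Type*} [CommRing T]
    (ρ : T →+* Module.End ℂ (CuspForm (Gamma0 N) 2)) (hρ : Function.Injective ρ)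
    (hρT : ∀ t, ρ t ∈ CuspForm.heckeAlgebra N 2 (∅ : Set ℕ))
    (h : CuspForm.HasIntegralBasis N) (f₀ : CuspForm (Gamma0 N) 2)
    (hf₀3 : ¬ InL3 f₀)
    (hscal : ∀ t : T, ∃ c : ℤ, InL3 (ρ t f₀ - (c : ℂ) • f₀))
    (h3f : InL3 ((3 : ℂ) • f₀)) :
    ∃ (v : CuspForm (Gamma0 N) 2) (ψ : T →+* integralClosure ℤ ℂ)
      (𝔪' : Ideal (integralClosure ℤ ℂ)),
      v ≠ 0 ∧ (∀ t : T, ρ t v = ((ψ t : integralClosure ℤ ℂ) : ℂ) • v) ∧ 𝔪'.IsMaximal ∧
      ∀ t : T, InL3 (ρ t f₀) → ψ t ∈ 𝔪' := by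
  let 𝔪 : Ideal T :=
    { carrier := {t | InL3 (ρ t f₀)}
      add_mem' := by
        intro x y hx hy
        show InL3 (ρ (x + y) f₀)
        rw [map_add, LinearMap.add_apply]
        exact inL3_add hx hy
      zero_mem' := by
        show InL3 (ρ 0 f₀)
        rw [map_zero, LinearMap.zero_apply]
        exact inL3_zero
      smul_mem' := by
        intro c x hx
        show InL3 (ρ (c * x) f₀)
        rw [map_mul, Module.End.mul_apply]
        exact inL3_hecke (hρT c) hx }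
  have hmem : ∀ t : T, t ∈ 𝔪 ↔ InL3 (ρ t f₀) := fun t => Iff.rfl
  have hint : ∀ c : ℤ, (c : T) ∈ 𝔪 ↔ (3 : ℤ) ∣ c := by
    intro c
    rw [hmem, map_intCast, Module.End.intCast_apply, ← Int.cast_smul_eq_zsmul ℂ]
    constructor
    · intro hc
      by_contra h3c
      have hcop : IsCoprime c 3 := by
        rw [Int.isCoprime_iff_gcd_eq_one]
        have h3p : Nat.Prime 3 := by norm_num
        have := (Nat.Prime.coprime_iff_not_dvd h3p).mpr (fun hd : 3 ∣ c.natAbs => h3c (Int.natCast_dvd.mpr hd))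
        rw [Int.gcd_comm]
        simpa [Int.gcd, Nat.Coprime] using this
      obtain ⟨u, w, huw⟩ := hcop
      apply hf₀3
      have h1 : f₀ = (u : ℂ) • ((c : ℂ) • f₀) + (w : ℂ) • ((3 : ℂ) • f₀) := by
        have h2 := congrArg (Int.cast : ℤ → ℂ) huw
        push_cast at h2
        rw [smul_smul, smul_smul, ← add_smul, h2, one_smul]
      rw [h1]
      exact inL3_add (inL3_smul_int u hc) (inL3_smul_int w h3f)
    · rintro ⟨k, rfl⟩
      have h1 : (((3 * k : ℤ) : ℂ)) • f₀ = (k : ℂ) • ((3 : ℂ) • f₀) := by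
        rw [smul_smul]; push_cast; ring_nf
      rw [h1]
      exact inL3_smul_int k h3f
  have hmax : 𝔪.IsMaximal := by
    rw [Ideal.isMaximal_iff]
    constructor
    · rw [hmem, map_one, Module.End.one_apply]
      exact hf₀3
    · intro J x hJ hx𝔪 hxJ
      obtain ⟨c, hc⟩ := hscal x
      have h1 : x - (c : T) ∈ 𝔪 := by
        rw [hmem, map_sub, LinearMap.sub_apply, map_intCast, Module.End.intCast_apply,
          ← Int.cast_smul_eq_zsmul ℂ]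
        exact hc
      have hcJ : (c : T) ∈ J := by
        have h2 := J.sub_mem hxJ (hJ h1)
        simpa using h2
      have h3c : ¬ (3 : ℤ) ∣ c := by
        intro h3c
        apply hx𝔪
        have h2 := 𝔪.add_mem h1 ((hint c).mpr h3c)
        simpa using h2
      have hcop : IsCoprime c 3 := by
        rw [Int.isCoprime_iff_gcd_eq_one]
        have h3p : Nat.Prime 3 := by norm_num
        have := (Nat.Prime.coprime_iff_not_dvd h3p).mpr (fun hd : 3 ∣ c.natAbs => h3c (Int.natCast_dvd.mpr hd))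
        rw [Int.gcd_comm]
        simpa [Int.gcd, Nat.Coprime] using this
      obtain ⟨u, w, huw⟩ := hcop
      have h3J : ((3 : ℤ) : T) ∈ J := hJ ((hint 3).mpr dvd_rfl)
      have h4 : (1 : T) = (u : T) * (c : T) + (w : T) * ((3 : ℤ) : T) := by
        have h5 := congrArg (Int.cast : ℤ → T) huw
        push_cast at h5
        rw [← h5]
        push_cast
        ring
      rw [h4]
      exact J.add_mem (J.mul_mem_left _ hcJ) (J.mul_mem_left _ h3J)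
  have hLspan : Submodule.span ℂ ((CuspForm.intLattice N 2 :
      Submodule ℤ (CuspForm (Gamma0 N) 2)) : Set (CuspForm (Gamma0 N) 2)) = ⊤ := by
    rw [eq_top_iff, ← h]
    apply Submodule.span_mono
    intro g hg
    rw [SetLike.mem_coe, mem_lat_iff]
    intro n
    obtain ⟨m, hm⟩ := Subring.mem_bot.mp (hg n)
    exact ⟨m, hm.symm⟩
  obtain ⟨v, ψ, 𝔪', hv, heigv, hmax', hcong⟩ := exists_eigenchar_lift ρ hρ
    (CuspForm.intLattice N 2) (CuspForm.intLattice_fg N 2) hLspan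
    (fun t l hl => CuspForm.mem_intLattice_of_mem_heckeAlgebra (by norm_num) (hρT t) hl) 𝔪 hmax
  exact ⟨v, ψ, 𝔪', hv, heigv, hmax', fun t ht => hcong t ((hmem t).mpr ht)⟩

end Fermat.Agent.S49
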