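import Fermat.Agent.S49.Formal
import Fermat.Agent.S49.Coeff

set_option autoImplicit false

namespace Fermat.Agent.S49

open CuspForm ModularForm ModularFormClass CongruenceSubgroup

variable {N : ℕ}

theorem coeff_rel [NeZero N] (v : CuspForm (Gamma0 N) 2) (lam : ℕ → ℂ)
    (hT : ∀ (ℓ : ℕ) (hℓ : ℓ.Prime) (hℓN : ¬ ℓ ∣ N), CuspForm.heckeTLin 2 hℓ hℓN v = lam ℓ • v)
    (hU : ∀ (q : ℕ) (_ : q.Prime) (hqN : q ∣ N), CuspForm.heckeULin 2 hqN v = lam q • v)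
    (ℓ : ℕ) (hℓ : ℓ.Prime) (n : ℕ) :
    qCoeff ⇑v (ℓ * n) +
        (if ℓ ∣ N then 0 else (ℓ : ℂ)) * (if ℓ ∣ n then qCoeff ⇑v (n / ℓ) else 0)
      = lam ℓ * qCoeff ⇑v n := by
  by_cases hℓN : ℓ ∣ N
  · have h1 : qCoeff ⇑(CuspForm.heckeULin 2 hℓN v) n = qCoeff ⇑(lam ℓ • v) n := by
      rw [hU ℓ hℓ hℓN]
    rw [qc_heckeU hℓ.ne_zero, qc_smul] at h1
    rw [if_pos hℓN, zero_mul, add_zero, mul_comm ℓ n, h1]
  · have h1 : qCoeff ⇑(CuspForm.heckeTLin 2 hℓ hℓN v) n = qCoeff ⇑(lam ℓ • v) n := by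
      rw [hT ℓ hℓ hℓN]
    rw [qc_heckeT, qc_smul] at h1
    rw [if_neg hℓN, mul_comm ℓ n, ← h1]
    split_ifs <;> norm_num

theorem coeff_one_ne_zero [NeZero N] (v : CuspForm (Gamma0 N) 2) (hv : v ≠ 0) (lam e : ℕ → ℂ)
    (hrel : ∀ ℓ : ℕ, ℓ.Prime → ∀ n : ℕ, qCoeff ⇑v (ℓ * n) +
        e ℓ * (if ℓ ∣ n then qCoeff ⇑v (n / ℓ) else 0) = lam ℓ * qCoeff ⇑v n) :
    qCoeff ⇑v 1 ≠ 0 := by
  intro h1
  apply hv
  apply eq_zero_of_qc
  intro n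
  induction n using Nat.strong_induction_on with
  | _ n ih =>
    rcases Nat.lt_or_ge n 2 with hn | hn
    · interval_cases n
      · exact qc_zero v
      · exact h1
    · obtain ⟨ℓ, hℓ, hdvd⟩ := Nat.exists_prime_and_dvd (by omega : n ≠ 1)
      obtain ⟨m, rfl⟩ := hdvd
      have hm0 : m ≠ 0 := by
        rintro rfl
        omega
      have hm : m < ℓ * m := by
        have := hℓ.two_le
        nlinarith [Nat.pos_of_ne_zero hm0]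
      have hrel' := hrel ℓ hℓ m
      rw [ih m hm, mul_zero] at hrel'
      have h2 : (if ℓ ∣ m then qCoeff ⇑v (m / ℓ) else 0) = 0 := by
        split_ifs with hd
        · exact ih _ (lt_of_le_of_lt (Nat.div_le_self m ℓ) hm)
        · rfl
      rw [h2, mul_zero, add_zero] at hrel'
      exact hrel'

theorem exists_normalized [NeZero N] (v : CuspForm (Gamma0 N) 2) (hv : v ≠ 0) (lam : ℕ → ℂ)
    (hT : ∀ (ℓ : ℕ) (hℓ : ℓ.Prime) (hℓN : ¬ ℓ ∣ N), CuspForm.heckeTLin 2 hℓ hℓN v = lam ℓ • v)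
    (hU : ∀ (q : ℕ) (_ : q.Prime) (hqN : q ∣ N), CuspForm.heckeULin 2 hqN v = lam q • v) :
    ∃ g : CuspForm (Gamma0 N) 2, g.IsNormalizedEigenform ∧
      ∀ ℓ : ℕ, ℓ.Prime → qCoeff ⇑g ℓ = lam ℓ := by
  have hrel := coeff_rel v lam hT hU
  have hc1 := coeff_one_ne_zero v hv lam _ hrel
  have hb : ∀ n, qCoeff ⇑((qCoeff ⇑v 1)⁻¹ • v) n = (qCoeff ⇑v 1)⁻¹ * qCoeff ⇑v n :=
    fun n => qc_smul _ _ _
  have hlam : ∀ ℓ : ℕ, ℓ.Prime → qCoeff ⇑((qCoeff ⇑v 1)⁻¹ • v) ℓ = lam ℓ := by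
    intro ℓ hℓ
    have h1 := hrel ℓ hℓ 1
    have h2 : ¬ ℓ ∣ 1 := fun hd => hℓ.one_lt.ne' (Nat.dvd_one.mp hd)
    rw [if_neg h2, mul_zero, add_zero, mul_one] at h1
    rw [hb, h1]
    field_simp
  have heig : FormalHecke.IsEigensystem (fun ℓ => if ℓ ∣ N then 0 else (ℓ : ℂ))
      (fun n => qCoeff ⇑((qCoeff ⇑v 1)⁻¹ • v) n) := by
    refine ⟨?_, ?_⟩
    · simp only [hb]
      field_simp
    · intro ℓ hℓ n
      simp only [hlam ℓ hℓ, hb]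
      have h1 := hrel ℓ hℓ n
      split_ifs at h1 ⊢ <;> linear_combination (qCoeff ⇑v 1)⁻¹ * h1
  have hrec := isRecursive_of_isEigensystem heig
  refine ⟨(qCoeff ⇑v 1)⁻¹ • v, ⟨hrec.1, hrec.2.1, ?_, ?_⟩, hlam⟩
  · intro p r hp hpN
    have h1 := hrec.2.2 p r hp
    simp only [if_neg hpN] at h1
    exact h1
  · intro p r hp hpN
    have h1 := hrec.2.2 p r hp
    simp only [if_pos hpN, zero_mul, sub_zero] at h1
    exact h1

end Fermat.Agent.S49
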