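import Mathlib
import Fermat.Prelude.Def_FormalHecke_Eigensystem

set_option autoImplicit false

namespace Fermat.Agent.S49

variable {R : Type*} [CommRing R]

theorem eig_prime_pow {e a : ℕ → R} (h : FormalHecke.IsEigensystem e a) (ℓ r : ℕ)
    (hℓ : ℓ.Prime) : a (ℓ ^ (r + 2)) = a ℓ * a (ℓ ^ (r + 1)) - e ℓ * a (ℓ ^ r) := by
  have h1 := h.2 ℓ hℓ (ℓ ^ (r + 1))
  have h2 : ℓ ∣ ℓ ^ (r + 1) := dvd_pow_self ℓ (Nat.succ_ne_zero r)
  have h3 : ℓ ^ (r + 1) / ℓ = ℓ ^ r := by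
    rw [pow_succ, Nat.mul_div_cancel _ hℓ.pos]
  have h4 : ℓ * ℓ ^ (r + 1) = ℓ ^ (r + 2) := by ring
  rw [if_pos h2, h3, h4] at h1
  rw [← h1]
  ring

theorem eig_prime_pow_mul {e a : ℕ → R} (h : FormalHecke.IsEigensystem e a) (ℓ : ℕ)
    (hℓ : ℓ.Prime) (m : ℕ) (hm : ¬ ℓ ∣ m) :
    ∀ r : ℕ, a (ℓ ^ r * m) = a (ℓ ^ r) * a m ∧ a (ℓ ^ (r + 1) * m) = a (ℓ ^ (r + 1)) * a m := by
  intro r
  induction r with
  | zero =>
    refine ⟨by simp [h.1], ?_⟩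
    have h1 := h.2 ℓ hℓ m
    rw [if_neg hm, mul_zero, add_zero] at h1
    simpa using h1
  | succ r ih =>
    refine ⟨ih.2, ?_⟩
    have h1 := h.2 ℓ hℓ (ℓ ^ (r + 1) * m)
    have h2 : ℓ ∣ ℓ ^ (r + 1) * m := Dvd.dvd.mul_right (dvd_pow_self ℓ (Nat.succ_ne_zero r)) m
    have h3 : ℓ ^ (r + 1) * m / ℓ = ℓ ^ r * m := by
      rw [pow_succ, mul_assoc, mul_comm ℓ m, ← mul_assoc, Nat.mul_div_cancel _ hℓ.pos]
    have h4 : ℓ * (ℓ ^ (r + 1) * m) = ℓ ^ (r + 1 + 1) * m := by ring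
    rw [if_pos h2, h3, h4, ih.1, ih.2] at h1
    have h5 := eig_prime_pow h ℓ r hℓ
    have h6 : a (ℓ ^ (r + 1 + 1) * m) = a ℓ * (a (ℓ ^ (r + 1)) * a m) - e ℓ * (a (ℓ ^ r) * a m) := by
      rw [← h1]; ring
    rw [h6, h5]
    ring

theorem eig_mul_of_coprime {e a : ℕ → R} (h : FormalHecke.IsEigensystem e a) :
    ∀ m n : ℕ, m.Coprime n → a (m * n) = a m * a n := by
  intro m
  induction m using Nat.recOnPosPrimePosCoprime with
  | prime_pow p k hp hk =>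
    intro n hn
    have hpn : ¬ p ∣ n := by
      intro hdvd
      have h1 : p ∣ Nat.gcd (p ^ k) n := Nat.dvd_gcd (dvd_pow_self p hk.ne') hdvd
      rw [Nat.Coprime] at hn
      rw [hn] at h1
      exact hp.one_lt.ne' (Nat.dvd_one.mp h1)
    exact (eig_prime_pow_mul h p hp n hpn k).1
  | zero =>
    intro n hn
    have : n = 1 := by simpa using hn
    subst this
    simp [h.1]
  | one =>
    intro n _
    simp [h.1]
  | coprime x y hx hy hxy ihx ihy =>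
    intro n hn
    have hxn : x.Coprime n := Nat.Coprime.coprime_dvd_left (Dvd.intro _ rfl) hn
    have hyn : y.Coprime n := Nat.Coprime.coprime_dvd_left (Dvd.intro_left _ rfl) hn
    have hxyn : x.Coprime (y * n) := Nat.Coprime.mul_right hxy hxn
    rw [mul_assoc, ihx (y * n) hxyn, ihy n hyn, ihx y hxy, mul_assoc]

theorem isRecursive_of_isEigensystem {e a : ℕ → R} (h : FormalHecke.IsEigensystem e a) :
    FormalHecke.IsRecursive e a :=
  ⟨h.1, eig_mul_of_coprime h, fun ℓ r hℓ => eig_prime_pow h ℓ r hℓ⟩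

end Fermat.Agent.S49
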