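import Mathlib

set_option autoImplicit false

namespace Fermat.Agent.S49

theorem exists_common_eigenvector {K V : Type*} [Field K] [IsAlgClosed K] [AddCommGroup V]
    [Module K V] (S : Set (Module.End K V)) (hS : ∀ s ∈ S, ∀ t ∈ S, Commute s t) :
    ∀ (n : ℕ) (W : Submodule K V), FiniteDimensional K W → Module.finrank K W = n → W ≠ ⊥ →
    (∀ s ∈ S, ∀ w ∈ W, s w ∈ W) →
    ∃ v ∈ W, v ≠ 0 ∧ ∀ s ∈ S, ∃ μ : K, s v = μ • v := by
  intro n
  induction n using Nat.strong_induction_on with
  | _ n ih =>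
    intro W hfd hn hW hstab
    by_cases hsc : ∀ s ∈ S, ∃ μ : K, ∀ w ∈ W, s w = μ • w
    · obtain ⟨v, hvW, hv0⟩ := (Submodule.ne_bot_iff W).mp hW
      exact ⟨v, hvW, hv0, fun s hs => (hsc s hs).imp fun μ h => h v hvW⟩
    · push_neg at hsc
      obtain ⟨s, hs, hns⟩ := hsc
      have : Nontrivial W := (Submodule.nontrivial_iff_ne_bot).mpr hW
      obtain ⟨μ, hμ⟩ := Module.End.exists_eigenvalue (s.restrict (hstab s hs))
      obtain ⟨w, hw⟩ := hμ.exists_hasEigenvector
      have hw1 : s (w : V) = μ • (w : V) := by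
        have := hw.apply_eq_smul
        have h2 := congrArg Subtype.val this
        simpa using h2
      have hw0 : (w : V) ≠ 0 := by
        intro h
        exact hw.2 (Subtype.ext h)
      let W' : Submodule K V := W ⊓ LinearMap.ker (s - μ • (1 : Module.End K V))
      have hW'le : W' ≤ W := inf_le_left
      have hwW' : (w : V) ∈ W' := by
        refine ⟨w.2, ?_⟩
        simp [LinearMap.mem_ker, hw1]
      have hW'ne : W' ≠ ⊥ := fun h => hw0 (by simpa [h] using hwW')
      have hW'lt : W' < W := by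
        refine lt_of_le_of_ne hW'le ?_
        intro h
        obtain ⟨u, huW, hu⟩ := hns μ
        have : u ∈ W' := h ▸ huW
        have h3 : (s - μ • (1 : Module.End K V)) u = 0 := this.2
        apply hu
        simpa [sub_eq_zero] using h3
      have hfd' : FiniteDimensional K W' := Submodule.finiteDimensional_of_le hW'le
      have hlt : Module.finrank K W' < n := hn ▸ Submodule.finrank_lt_finrank_of_lt hW'lt
      have hstab' : ∀ s' ∈ S, ∀ u ∈ W', s' u ∈ W' := by
        intro s' hs' u hu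
        refine ⟨hstab s' hs' u hu.1, ?_⟩
        have h3 : (s - μ • (1 : Module.End K V)) u = 0 := hu.2
        have h4 : s u = μ • u := by simpa [sub_eq_zero] using h3
        have hc : s (s' u) = s' (s u) := by
          have := hS s hs s' hs'
          have h5 := congrArg (fun f : Module.End K V => f u) this.eq
          simpa using h5
        simp [LinearMap.mem_ker, hc, h4]
      obtain ⟨v, hv, hv0, hveig⟩ := ih _ hlt W' hfd' rfl hW'ne hstab'
      exact ⟨v, hW'le hv, hv0, hveig⟩


theorem exists_eigenchar_lift {V : Type*} [AddCommGroup V] [Module ℂ V]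
    {T : Type*} [CommRing T] (ρ : T →+* Module.End ℂ V) (hρ : Function.Injective ρ)
    (L : Submodule ℤ V) (hLfg : L.FG) (hLspan : Submodule.span ℂ (L : Set V) = ⊤)
    (hLstab : ∀ t : T, ∀ l ∈ L, ρ t l ∈ L)
    (𝔪 : Ideal T) (h𝔪 : 𝔪.IsMaximal) :
    ∃ (v : V) (ψ : T →+* integralClosure ℤ ℂ) (𝔪' : Ideal (integralClosure ℤ ℂ)),
      v ≠ 0 ∧ (∀ t : T, ρ t v = ((ψ t : integralClosure ℤ ℂ) : ℂ) • v) ∧ 𝔪'.IsMaximal ∧
      ∀ t ∈ 𝔪, ψ t ∈ 𝔪' := by
  classical
  obtain ⟨s, hs⟩ := hLfg
  have hsL : ∀ i ∈ s, i ∈ L := fun i hi => hs ▸ Submodule.subset_span hi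
  have hspan : Submodule.span ℂ (s : Set V) = ⊤ := by
    rw [eq_top_iff, ← hLspan, Submodule.span_le, ← hs]
    exact Submodule.span_subset_span ℤ ℂ _
  have hfdV : Module.Finite ℂ V := ⟨⟨s, hspan⟩⟩
  have hNL : IsNoetherian ℤ L := isNoetherian_of_fg_of_noetherian L ⟨s, hs⟩
  -- finiteness of T over ℤ
  let ev : T →+ (s → L) :=
    { toFun := fun t i => ⟨ρ t (i : V), hLstab t _ (hsL _ i.2)⟩
      map_zero' := by
        funext i
        apply Subtype.ext
        simp
      map_add' := by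
        intro t t'
        funext i
        apply Subtype.ext
        simp }
  have hev : Function.Injective ev.toIntLinearMap := by
    intro t t' h
    apply hρ
    apply LinearMap.ext_on hspan
    intro i hi
    have h1 := congrFun h ⟨i, hi⟩
    exact congrArg Subtype.val h1
  have hTfin : Module.Finite ℤ T := Module.Finite.of_injective ev.toIntLinearMap hev
  have hTint : Algebra.IsIntegral ℤ T := Algebra.IsIntegral.of_finite ℤ T
  have hTnoeth : IsNoetherianRing T :=
    isNoetherian_of_tower ℤ (isNoetherian_of_isNoetherianRing_of_finite ℤ T)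
  have h𝔪p : 𝔪.IsPrime := h𝔪.isPrime
  obtain ⟨𝔭, h𝔭min, h𝔭le⟩ := Ideal.exists_minimalPrimes_le (bot_le : (⊥ : Ideal T) ≤ 𝔪)
  have hann : Module.annihilator T T = ⊥ := by
    rw [eq_bot_iff]
    intro r hr
    have := Module.mem_annihilator.mp hr 1
    simpa using this
  have h𝔭ass : 𝔭 ∈ associatedPrimes T T :=
    Module.associatedPrimes.minimalPrimes_annihilator_subset_associatedPrimes T T (hann ▸ h𝔭min)
  obtain ⟨h𝔭p, x, hx⟩ := isAssociatedPrime_iff.mp h𝔭ass
  have hmem𝔭 : ∀ t : T, t ∈ 𝔭 ↔ t * x = 0 := by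
    intro t
    rw [hx, Submodule.mem_colon_singleton]
    simp
  have hx0 : x ≠ 0 := by
    intro h
    apply h𝔭p.ne_top
    rw [Ideal.eq_top_iff_one, hmem𝔭, h, mul_zero]
  have hρx : ρ x ≠ 0 := fun h => hx0 (hρ (by rw [h, map_zero]))
  obtain ⟨u, hu⟩ : ∃ u : V, ρ x u ≠ 0 := by
    by_contra hcon
    push Not at hcon
    exact hρx (LinearMap.ext hcon)
  let W : Submodule ℂ V :=
    { carrier := {w | ∀ t ∈ 𝔭, ρ t w = 0}
      add_mem' := by
        intro a b ha hb t ht
        rw [map_add, ha t ht, hb t ht, add_zero]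
      zero_mem' := by
        intro t _
        exact map_zero _
      smul_mem' := by
        intro c a ha t ht
        rw [map_smul, ha t ht, smul_zero] }
  have hW0 : ρ x u ∈ W := by
    intro t ht
    have h1 : ρ t (ρ x u) = ρ (t * x) u := by rw [map_mul]; rfl
    rw [h1, (hmem𝔭 t).mp ht, map_zero]
    rfl
  have hWne : W ≠ ⊥ := fun h => hu (by simpa [h] using hW0)
  have hcomm : ∀ a ∈ Set.range ρ, ∀ b ∈ Set.range ρ, Commute a b := by
    rintro _ ⟨a, rfl⟩ _ ⟨b, rfl⟩
    exact (Commute.all a b).map ρ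
  have hstab : ∀ a ∈ Set.range ρ, ∀ w ∈ W, a w ∈ W := by
    rintro _ ⟨a, rfl⟩ w hw t ht
    have h1 : ρ t (ρ a w) = ρ a (ρ t w) := by
      have h2 : ρ t * ρ a = ρ a * ρ t := by rw [← map_mul, ← map_mul, mul_comm]
      exact congrArg (fun f : Module.End ℂ V => f w) h2
    rw [h1, hw t ht, map_zero]
  obtain ⟨v, hvW, hv0, hveig⟩ := exists_common_eigenvector (Set.range ρ) hcomm _ W
    inferInstance rfl hWne hstab
  have hex : ∀ t : T, ∃ μ : ℂ, ρ t v = μ • v := fun t => hveig (ρ t) ⟨t, rfl⟩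
  choose ψ₀ hψ₀ using hex
  have hinj : Function.Injective (fun c : ℂ => c • v) := smul_left_injective ℂ hv0
  let ψ₁ : T →+* ℂ :=
    { toFun := ψ₀
      map_one' := by
        apply hinj
        simp only
        rw [← hψ₀, map_one, one_smul]
        rfl
      map_mul' := by
        intro a b
        apply hinj
        simp only
        rw [← hψ₀, map_mul, Module.End.mul_apply, hψ₀ b, map_smul, hψ₀ a, smul_smul, mul_comm]
      map_zero' := by
        apply hinj
        simp only
        rw [← hψ₀, map_zero, zero_smul]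
        rfl
      map_add' := by
        intro a b
        apply hinj
        simp only
        rw [← hψ₀, map_add, LinearMap.add_apply, hψ₀ a, hψ₀ b, add_smul] }
  have hψ₁ : ∀ t, ρ t v = ψ₁ t • v := hψ₀
  have hψint : ∀ t, ψ₁ t ∈ integralClosure ℤ ℂ := by
    intro t
    exact (Algebra.IsIntegral.isIntegral (R := ℤ) t).map ψ₁.toIntAlgHom
  let ψ : T →+* integralClosure ℤ ℂ := ψ₁.codRestrict (integralClosure ℤ ℂ) hψint
  have hψ : ∀ t, ((ψ t : integralClosure ℤ ℂ) : ℂ) = ψ₁ t := fun t => rfl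
  have h𝔭ker : 𝔭 ≤ RingHom.ker ψ := by
    intro t ht
    rw [RingHom.mem_ker]
    apply Subtype.ext
    rw [hψ]
    apply hinj
    simp only
    rw [← hψ₁, hvW t ht, ZeroMemClass.coe_zero, zero_smul]
  have hkerle : RingHom.ker ψ ≤ 𝔭 := by
    by_contra hcon
    obtain ⟨y, hyker, hy𝔭⟩ := Set.not_subset.mp hcon
    have hlt := Ideal.comap_lt_comap_of_integral_mem_sdiff (R := ℤ) h𝔭ker ⟨hyker, hy𝔭⟩
      (Algebra.IsIntegral.isIntegral y)
    have hbot : Ideal.comap (algebraMap ℤ T) (RingHom.ker ψ) = ⊥ := by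
      rw [eq_bot_iff]
      intro n hn
      rw [Ideal.mem_comap, RingHom.mem_ker] at hn
      have h1 : ((ψ (algebraMap ℤ T n) : integralClosure ℤ ℂ) : ℂ) = (n : ℂ) := by
        rw [hψ]; simp
      rw [hn] at h1
      simp only [ZeroMemClass.coe_zero] at h1
      have : n = 0 := by exact_mod_cast h1.symm
      simp [this]
    rw [hbot] at hlt
    exact not_lt_bot hlt
  let _ : Algebra T (integralClosure ℤ ℂ) := ψ.toAlgebra
  have halg : algebraMap T (integralClosure ℤ ℂ) = ψ := RingHom.algebraMap_toAlgebra ψ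
  have hint : Algebra.IsIntegral T (integralClosure ℤ ℂ) := by
    refine ⟨fun z => ?_⟩
    exact (Algebra.IsIntegral.isIntegral (R := ℤ) z).tower_top
  have hker : RingHom.ker (algebraMap T (integralClosure ℤ ℂ)) ≤ 𝔪 := by
    rw [halg]
    exact hkerle.trans h𝔭le
  obtain ⟨Q, hQmax, hQ⟩ := Ideal.exists_ideal_over_maximal_of_isIntegral 𝔪 hker
  refine ⟨v, ψ, Q, hv0, ?_, hQmax, ?_⟩
  · intro t
    rw [hψ]
    exact hψ₁ t
  · intro t ht
    rw [← hQ, Ideal.mem_comap, halg] at ht
    exact ht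

end Fermat.Agent.S49
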