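import Fermat.Agent.S49.Lifting
import Fermat.Agent.S49.Formal
import Fermat.Agent.S49.Coeff

set_option autoImplicit false

namespace Fermat.Agent.S49

open CuspForm ModularForm ModularFormClass CongruenceSubgroup EisensteinWeightOne

variable {N : ℕ}

theorem e1Chi3In_eq :
    e1Chi3In ℤ = 1 + (3 : ℤ) • PowerSeries.mk (fun n => if n = 0 then 0 else 2 * sigmaChi n) := by
  ext n
  simp only [e1Chi3In, e1Chi3, PowerSeries.coeff_map, PowerSeries.coeff_mk, map_add,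
    PowerSeries.coeff_one, map_smul, smul_eq_mul, Int.coe_castRingHom, Int.cast_id]
  split_ifs <;> ring

theorem bridge_coeff (a : ℕ → ℤ) (n : ℕ) : (3 : ℤ) ∣ (bridgeProduct a).coeff n - a n := by
  unfold bridgeProduct
  rw [e1Chi3In_eq, mul_add, mul_one, map_add, PowerSeries.coeff_mk, mul_smul_comm, map_smul,
    smul_eq_mul, add_sub_cancel_left]
  exact Dvd.intro _ rfl

theorem three_dvd_sub_chi (n : ℕ) : (3 : ℤ) ∣ (n : ℤ) - chiNegThree n := by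
  unfold chiNegThree
  split_ifs with h1 h2 <;> omega

theorem eig_T_mod3 {a af : ℕ → ℤ}
    (heig : FormalHecke.IsEigensystem
      (fun ℓ => if ℓ ∣ N then 0 else ((chiNegThree ℓ : ℤ) : ℤ)) a)
    (h3 : ∀ n, (3 : ℤ) ∣ af n - a n) (ℓ : ℕ) (hℓ : ℓ.Prime) (hℓN : ¬ ℓ ∣ N) (n : ℕ) :
    (3 : ℤ) ∣ af (n * ℓ) + (if ℓ ∣ n then (ℓ : ℤ) * af (n / ℓ) else 0) - a ℓ * af n := by
  have h1 := heig.2 ℓ hℓ n
  simp only [if_neg hℓN] at h1
  rw [mul_comm ℓ n] at h1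
  by_cases hn : ℓ ∣ n
  · rw [if_pos hn] at h1 ⊢
    have h2 : af (n * ℓ) + (ℓ : ℤ) * af (n / ℓ) - a ℓ * af n =
        (af (n * ℓ) - a (n * ℓ)) + (ℓ : ℤ) * (af (n / ℓ) - a (n / ℓ)) - a ℓ * (af n - a n)
          + ((ℓ : ℤ) - chiNegThree ℓ) * a (n / ℓ) := by
      linear_combination h1
    rw [h2]
    exact dvd_add (dvd_sub (dvd_add (h3 _) (Dvd.dvd.mul_left (h3 _) _))
      (Dvd.dvd.mul_left (h3 _) _)) (Dvd.dvd.mul_right (three_dvd_sub_chi ℓ) _)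
  · rw [if_neg hn] at h1 ⊢
    have h2 : af (n * ℓ) + 0 - a ℓ * af n =
        (af (n * ℓ) - a (n * ℓ)) - a ℓ * (af n - a n) := by
      linear_combination h1
    rw [h2]
    exact dvd_sub (h3 _) (Dvd.dvd.mul_left (h3 _) _)

theorem eig_U_mod3 {a af : ℕ → ℤ}
    (heig : FormalHecke.IsEigensystem
      (fun ℓ => if ℓ ∣ N then 0 else ((chiNegThree ℓ : ℤ) : ℤ)) a)
    (h3 : ∀ n, (3 : ℤ) ∣ af n - a n) (q : ℕ) (hq : q.Prime) (hqN : q ∣ N) (n : ℕ) :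
    (3 : ℤ) ∣ af (n * q) - a q * af n := by
  have h1 := heig.2 q hq n
  simp only [if_pos hqN, zero_mul, add_zero] at h1
  rw [mul_comm q n] at h1
  have h2 : af (n * q) - a q * af n = (af (n * q) - a (n * q)) - a q * (af n - a n) := by
    linear_combination h1
  rw [h2]
  exact dvd_sub (h3 _) (Dvd.dvd.mul_left (h3 _) _)

def InL3 (g : CuspForm (Gamma0 N) 2) : Prop :=
  ∀ n : ℕ, ∃ m : ℤ, qCoeff ⇑g n = (3 : ℂ) * (m : ℂ)

theorem inL3_zero : InL3 (0 : CuspForm (Gamma0 N) 2) := fun n =>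
  ⟨0, by rw [P2MW.S_CuspForm_intLattice_fg.W3WsD.qCoeff_zero']; simp⟩

theorem inL3_add {g g' : CuspForm (Gamma0 N) 2} (hg : InL3 g) (hg' : InL3 g') :
    InL3 (g + g') := by
  intro n
  obtain ⟨m, hm⟩ := hg n
  obtain ⟨m', hm'⟩ := hg' n
  exact ⟨m + m', by rw [qc_add, hm, hm']; push_cast; ring⟩

theorem inL3_sub {g g' : CuspForm (Gamma0 N) 2} (hg : InL3 g) (hg' : InL3 g') :
    InL3 (g - g') := by
  intro n
  obtain ⟨m, hm⟩ := hg n
  obtain ⟨m', hm'⟩ := hg' n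
  exact ⟨m - m', by rw [qc_sub, hm, hm']; push_cast; ring⟩

theorem inL3_smul_int (c : ℤ) {g : CuspForm (Gamma0 N) 2} (hg : InL3 g) :
    InL3 ((c : ℂ) • g) := by
  intro n
  obtain ⟨m, hm⟩ := hg n
  exact ⟨c * m, by rw [qc_smul, hm]; push_cast; ring⟩

theorem inL3_three_smul {g : CuspForm (Gamma0 N) 2} (hg : g ∈ CuspForm.intLattice N 2) :
    InL3 ((3 : ℂ) • g) := by
  intro n
  obtain ⟨m, hm⟩ := (mem_lat_iff g).mp hg n
  exact ⟨m, by rw [qc_smul, hm]⟩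

theorem exists_of_inL3 {g : CuspForm (Gamma0 N) 2} (hg : InL3 g) :
    ∃ g' ∈ CuspForm.intLattice N 2, g = (3 : ℂ) • g' := by
  refine ⟨(3 : ℂ)⁻¹ • g, ?_, ?_⟩
  · rw [mem_lat_iff]
    intro n
    obtain ⟨m, hm⟩ := hg n
    exact ⟨m, by rw [qc_smul, hm]; field_simp⟩
  · rw [smul_smul]; simp

theorem inL3_hecke [NeZero N] {S : Set ℕ} {t : Module.End ℂ (CuspForm (Gamma0 N) 2)}
    (ht : t ∈ CuspForm.heckeAlgebra N 2 S) {g : CuspForm (Gamma0 N) 2} (hg : InL3 g) :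
    InL3 (t g) := by
  obtain ⟨g', hg', rfl⟩ := exists_of_inL3 hg
  rw [map_smul]
  exact inL3_three_smul (CuspForm.mem_intLattice_of_mem_heckeAlgebra (by norm_num) ht hg')

end Fermat.Agent.S49
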